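import Mathlib
import Fermat.Agent.MUL.S48.W.Interfaces
import Fermat.Agent.MUL.Orig.S24.FFDefs
import Fermat.Agent.MUL.Orig.S48.Defs

section MergeWrap_S48_W_H_Defs -- from S48/W/H/Defs.lean

set_option autoImplicit false

noncomputable section

namespace Fermat.Agent.S48W

open ModularCurve AlgebraicCurve IntermediateField

local notation "Kb" => AlgebraicClosure ℚ

/-- `j ∈ F₁(M)`. -/
theorem jq_mem_FOne (M : ℕ) [NeZero M] : jq ∈ FOne M := by
  have h := jqd_mem_full M (one_dvd M)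
  rw [qExpand_one_apply] at h
  exact full_le_FOne M h

/-- `j` as an element of `ℚ̄ F₁(M)`. -/
def jOneBar (M : ℕ) [NeZero M] : FOneBar M :=
  ⟨coeffEmb Kb jq, coeffEmb_mem_laurentBaseChange Kb (jq_mem_FOne M)⟩

/-- `j` as an element of `ℚ̄ F(Γ₁(M) ∩ Γ₀(p))`. -/
def jOnePBar (M p : ℕ) [NeZero M] [NeZero p] : laurentBaseChange Kb (FOneP M p) :=
  ⟨coeffEmb Kb jq, coeffEmb_mem_laurentBaseChange Kb (FOne_le_FOneP M p (jq_mem_FOne M))⟩

/-- **(A1d)** the Fricke functions are algebraic over the function field of `X₀(M)`. -/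
def FrickeAlgebraicOne (M : ℕ) [NeZero M] : Prop :=
  ∀ a : ZMod M, a ≠ 0 → IsAlgebraic (modularFunctionFieldFull M) (fricke M a)

/-- **(H-FF)** `ℚ̄ F₁(M)` is a function field in one variable over `ℚ̄`. -/
def FunctionFieldOne (M : ℕ) [NeZero M] : Prop :=
  Fermat.Agent.S24Diff.IsFunctionFieldOver Kb (FOneBar M) (jOneBar M)

/-- **(H-FF)** `ℚ̄ F(Γ₁(M) ∩ Γ₀(p))` is a function field in one variable over `ℚ̄`. -/
def FunctionFieldOneP (M p : ℕ) [NeZero M] [NeZero p] : Prop :=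
  Fermat.Agent.S24Diff.IsFunctionFieldOver Kb (laurentBaseChange Kb (FOneP M p)) (jOnePBar M p)

/-- **(A1b)** the diamond substitution over `ℂ`: for every `d` there is a homomorphism of
`ℂ`-algebras on the algebra generated by the `q`-expansions of the generators which fixes the
`j(q^e)` (`e ∣ M`) and maps the Fricke function of `a` to the Fricke function of `d a`. -/
def DiamondComplexOne (M : ℕ) [NeZero M] : Prop :=
  ∀ d : (ZMod M)ˣ,
    ∃ φ : Algebra.adjoin ℂ (⇑(coeffEmb ℂ) '' genOne M) →ₐ[ℂ] LaurentSeries ℂ,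
      (∀ x ∈ divisorExpansions M, ∀ hx : coeffEmb ℂ x ∈ Algebra.adjoin ℂ (⇑(coeffEmb ℂ) '' genOne M),
        φ ⟨coeffEmb ℂ x, hx⟩ = coeffEmb ℂ x) ∧
      ∀ a : ZMod M, a ≠ 0 →
        ∀ hx : coeffEmb ℂ (fricke M a) ∈ Algebra.adjoin ℂ (⇑(coeffEmb ℂ) '' genOne M),
          φ ⟨coeffEmb ℂ (fricke M a), hx⟩ = coeffEmb ℂ (fricke M ((d : ZMod M) * a))

/-- **(H-DIAM)** the diamond automorphisms of `ℚ̄ F₁(M)` exist. -/
def DiamondExistsOne (M : ℕ) [NeZero M] : Prop :=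
  ∀ d : (ZMod M)ˣ, ∃ σ : FOneBar M ≃ₐ[Kb] FOneBar M, IsDiamond M d σ

end Fermat.Agent.S48W
end
end MergeWrap_S48_W_H_Defs
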