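import Mathlib
import Fermat.Agent.MUL.S48.W.H.Defs
import Fermat.Agent.MUL.S48.W.A.K.Theta

section MergeWrap_S48_W_H_DefsBar -- from S48/W/H/DefsBar.lean

set_option autoImplicit false

noncomputable section

namespace Fermat.Agent.S48W

open ModularCurve AlgebraicCurve IntermediateField

local notation "Kb" => AlgebraicClosure ℚ

/-- **(A1d), `ℚ̄`-form**: the Fricke functions are algebraic over `ℚ̄ F₀(M)`. -/
def FrickeAlgebraicBarOne (M : ℕ) [NeZero M] : Prop :=
  ∀ a : ZMod M, a ≠ 0 →
    IsAlgebraic (laurentBaseChange Kb (modularFunctionFieldFull M)) (coeffEmb Kb (fricke M a))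

/-- the `ℚ`-form implies the `ℚ̄`-form. -/
theorem frickeAlgebraicBarOne_of (M : ℕ) [NeZero M] (h : FrickeAlgebraicOne M) :
    FrickeAlgebraicBarOne M := by
  intro a ha
  obtain ⟨P, hP0, hP⟩ := h a ha
  -- the map `F₀(M) → ℚ̄ F₀(M)`
  let ι : modularFunctionFieldFull M →+* laurentBaseChange Kb (modularFunctionFieldFull M) :=
    { toFun := fun x => ⟨coeffEmb Kb (x : LaurentSeries ℚ), coeffEmb_mem_laurentBaseChange Kb x.2⟩
      map_one' := Subtype.ext (map_one _)
      map_mul' := fun _ _ => Subtype.ext (map_mul _ _ _)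
      map_zero' := Subtype.ext (map_zero _)
      map_add' := fun _ _ => Subtype.ext (map_add _ _ _) }
  refine ⟨P.map ι, (Polynomial.map_ne_zero_iff ι.injective).mpr hP0, ?_⟩
  have h1 : (algebraMap (laurentBaseChange Kb (modularFunctionFieldFull M)) (LaurentSeries Kb)).comp ι
      = (coeffEmb Kb).comp (algebraMap (modularFunctionFieldFull M) (LaurentSeries ℚ)) :=
    RingHom.ext fun _ => rfl
  rw [Polynomial.aeval_def, Polynomial.eval₂_map, h1, ← Polynomial.hom_eval₂,
    ← Polynomial.aeval_def, hP, map_zero]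

/-- a monic equation over `ℚ̄[j(q^M)]` gives algebraicity over `ℚ̄ F₀(M)`. -/
theorem isAlgebraic_bar_of_monic (M : ℕ) [NeZero M] (x : LaurentSeries Kb)
    (P : Polynomial (Polynomial Kb)) (hP : P.Monic)
    (h0 : Polynomial.eval₂ (Polynomial.aeval (coeffEmb Kb (qExpand ℚ M jq))).toRingHom x P = 0) :
    IsAlgebraic (laurentBaseChange Kb (modularFunctionFieldFull M)) x := by
  have hj : coeffEmb Kb (qExpand ℚ M jq) ∈ laurentBaseChange Kb (modularFunctionFieldFull M) :=
    coeffEmb_mem_laurentBaseChange Kb (jqd_mem_full M (dvd_refl M))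
  let J : laurentBaseChange Kb (modularFunctionFieldFull M) := ⟨_, hj⟩
  let ι : Polynomial Kb →+* laurentBaseChange Kb (modularFunctionFieldFull M) :=
    (Polynomial.aeval J).toRingHom
  have h1 : (algebraMap (laurentBaseChange Kb (modularFunctionFieldFull M)) (LaurentSeries Kb)).comp ι
      = (Polynomial.aeval (coeffEmb Kb (qExpand ℚ M jq))).toRingHom := by
    refine RingHom.ext fun Q => ?_
    show ((Polynomial.aeval J Q : laurentBaseChange Kb (modularFunctionFieldFull M)) :
        LaurentSeries Kb) = Polynomial.aeval (coeffEmb Kb (qExpand ℚ M jq)) Q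
    exact (Polynomial.aeval_algHom_apply
      (laurentBaseChange Kb (modularFunctionFieldFull M)).val J Q).symm
  refine ⟨P.map ι, (hP.map ι).ne_zero, ?_⟩
  rw [Polynomial.aeval_def, Polynomial.eval₂_map, h1]
  exact h0

end Fermat.Agent.S48W
end
end MergeWrap_S48_W_H_DefsBar
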