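import Mathlib
import Fermat.Agent.MUL.S48.W.Interfaces
import Fermat.Agent.MUL.Orig.F3.Galois.Intertwine
import Fermat.Agent.MUL.S48.W.H.FF

section MergeWrap_S48_W_H_GaloisComm -- from S48/W/H/GaloisComm.lean

set_option autoImplicit false

noncomputable section

namespace Fermat.Agent.S48WH

open ModularCurve AlgebraicCurve HahnSeries IntermediateField Fermat.Agent.S48W

local notation "Kb" => AlgebraicClosure ℚ
local notation "GK" => (AlgebraicClosure ℚ ≃ₐ[ℚ] AlgebraicClosure ℚ)

/-! ### Hecke operators -/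

section Hecke

variable {L : Type*} [Field L] [Algebra ℚ L] {F₀ F₁ : IntermediateField ℚ (LaurentSeries ℚ)}

/-- The inclusion `L F₀ ⊆ L F₁` intertwines the coefficientwise Galois actions. -/
theorem intertwines_qSeriesAlpha (h : F₀ ≤ F₁) (σ : L ≃ₐ[ℚ] L) :
    SemilinearAut.IntertwinesAlong (qSeriesAlpha L h).toRingHom
      (arithmeticGalois F₀ σ) (arithmeticGalois F₁ σ) := by
  intro x
  apply Subtype.ext
  rw [coe_arithmeticGalois_smul]
  show coeffMap (σ : L →+* L) ((qSeriesAlpha L h x : _) : LaurentSeries L)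
    = ((qSeriesAlpha L h (arithmeticGalois F₀ σ • x) : _) : LaurentSeries L)
  rw [coe_qSeriesAlpha, coe_qSeriesAlpha, coe_arithmeticGalois_smul]

/-- The map `q ↦ q^p` intertwines the coefficientwise Galois actions. -/
theorem intertwines_qSeriesBeta (p : ℕ) [NeZero p] (hF : ∀ y ∈ F₀, qExpand ℚ p y ∈ F₁)
    (σ : L ≃ₐ[ℚ] L) :
    SemilinearAut.IntertwinesAlong (qSeriesBeta L p hF).toRingHom
      (arithmeticGalois F₀ σ) (arithmeticGalois F₁ σ) := by
  intro x
  apply Subtype.ext
  rw [coe_arithmeticGalois_smul]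
  show coeffMap (σ : L →+* L) ((qSeriesBeta L p hF x : _) : LaurentSeries L)
    = ((qSeriesBeta L p hF (arithmeticGalois F₀ σ • x) : _) : LaurentSeries L)
  rw [coe_qSeriesBeta, coe_qSeriesBeta, coe_arithmeticGalois_smul]
  exact coeffMap_qExpand_w _ p _

/-- The operator `α_* β^*` commutes with the coefficientwise Galois action. -/
theorem qSeriesHecke_galois_smul (h : F₀ ≤ F₁) (p : ℕ) [NeZero p]
    (hF : ∀ y ∈ F₀, qExpand ℚ p y ∈ F₁) (σ : L ≃ₐ[ℚ] L)
    (x : Pic0 L (laurentBaseChange L F₀)) :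
    qSeriesHecke L h p hF (σ • x) = σ • qSeriesHecke L h p hF x := by
  classical
  by_cases hI : QSeriesInputs L h p hF
  · obtain ⟨hα, hβ, hP, hfin, hFI, hN⟩ := hI
    have := hP
    have e : qSeriesHecke L h p hF
        = Pic0.correspondence (qSeriesBeta L p hF) (qSeriesAlpha L h) hβ hα hFI hfin hN := by
      unfold qSeriesHecke
      rw [dif_pos ⟨hα, hβ, hP, hfin, hFI, hN⟩]
    rw [e]
    exact Fermat.Agent.F3G.pic0_correspondence_smul (qSeriesBeta L p hF) (qSeriesAlpha L h)
      hβ hα hFI hfin hN (intertwines_qSeriesBeta p hF σ) (intertwines_qSeriesAlpha h σ) x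
  · have e : qSeriesHecke L h p hF = 0 := by
      unfold qSeriesHecke
      rw [dif_neg hI]
    rw [e]
    simp

end Hecke

/-- `T_p` on `J₁(M)(ℚ̄)` commutes with the Galois action. -/
theorem heckeOne_galois_smul (M : ℕ) [NeZero M] (p : Nat.Primes) (σ : GK) (x : JOne M) :
    heckeOne M p (σ • x) = σ • heckeOne M p x := by
  have : NeZero (p : ℕ) := ⟨p.2.ne_zero⟩
  exact qSeriesHecke_galois_smul (FOne_le_FOneP M p) p (fun _ hy => qExpand_mem_FOneP M p hy) σ x

/-! ### algebra automorphisms as semilinear automorphisms -/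

section AlgAut

open scoped Pointwise

variable {K F : Type*} [Field K] [Field F] [Algebra K F]

theorem algEquiv_smul_place (s : F ≃ₐ[K] F) (v : Place K F) :
    s • v = SemilinearAut.ofAlgAut (K := K) s • v := by
  apply Place.ext
  ext x
  rw [Place.smul_toValuationSubring, SemilinearAut.smul_toValuationSubring,
    ValuationSubring.mem_pointwise_smul_iff_inv_smul_mem,
    ValuationSubring.mem_pointwise_smul_iff_inv_smul_mem]
  rfl

theorem algEquiv_smul_divisor (s : F ≃ₐ[K] F) (D : Divisor K F) :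
    s • D = SemilinearAut.ofAlgAut (K := K) s • D := by
  induction D using Finsupp.induction with
  | zero => rw [smul_zero, smul_zero]
  | single_add v n D _ _ ih =>
    rw [smul_add, smul_add, ih, Divisor.smul_single, SemilinearAut.smul_single,
      algEquiv_smul_place]

theorem algEquiv_smul_pic0 (s : F ≃ₐ[K] F) (x : Pic0 K F) :
    s • x = SemilinearAut.ofAlgAut (K := K) s • x := by
  obtain ⟨D, rfl⟩ := Pic0.mk_surjective x
  rw [Pic0.smul_mk, SemilinearAut.pic0_smul_mk]
  refine congrArg Pic0.mk (Subtype.ext ?_)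
  rw [Pic0.coe_degZeroSMulHom, SemilinearAut.coe_degZeroSMulHom]
  exact algEquiv_smul_divisor s D

end AlgAut

/-! ### diamond operators -/

section Diamond

variable (M : ℕ) [NeZero M]

theorem coeffEmb_mem_adjoin_genOne {x : LaurentSeries ℚ} (hx : x ∈ FOne M) :
    coeffEmb Kb x ∈ IntermediateField.adjoin Kb (⇑(coeffEmb Kb) '' genOne M) := by
  unfold FOne at hx
  induction hx using IntermediateField.adjoin_induction with
  | mem x hx => exact IntermediateField.subset_adjoin Kb _ ⟨x, hx, rfl⟩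
  | algebraMap c =>
    have h1 : coeffEmb Kb (algebraMap ℚ (LaurentSeries ℚ) c) = ((c : ℚ) : LaurentSeries Kb) := by
      rw [eq_ratCast, map_ratCast]
    rw [h1]
    exact SubfieldClass.ratCast_mem _ c
  | add x y _ _ hx hy =>
    rw [map_add]
    exact add_mem hx hy
  | inv x _ hx =>
    rw [map_inv₀]
    exact inv_mem hx
  | mul x y _ _ hx hy =>
    rw [map_mul]
    exact mul_mem hx hy

/-- `ℚ̄ F₁(M)` is generated over `ℚ̄` by the `j(q^d)` and the Fricke functions. -/
theorem FOneBar_eq_adjoin :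
    FOneBar M = IntermediateField.adjoin Kb (⇑(coeffEmb Kb) '' genOne M) := by
  apply le_antisymm
  · unfold FOneBar laurentBaseChange
    rw [IntermediateField.adjoin_le_iff]
    rintro _ ⟨x, hx, rfl⟩
    exact coeffEmb_mem_adjoin_genOne M hx
  · rw [IntermediateField.adjoin_le_iff]
    rintro _ ⟨x, hx, rfl⟩
    exact coeffEmb_mem_laurentBaseChange Kb (IntermediateField.subset_adjoin ℚ _ hx)

variable {M}

/-- A diamond automorphism commutes with the coefficientwise Galois action. -/
theorem isDiamond_arithmeticRingAut {d : (ZMod M)ˣ} {s : FOneBar M ≃ₐ[Kb] FOneBar M}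
    (hs : IsDiamond M d s) (σ : GK) (x : FOneBar M) :
    s (arithmeticRingAut (FOne M) σ x) = arithmeticRingAut (FOne M) σ (s x) := by
  obtain ⟨x, hx⟩ := x
  have hx' : x ∈ IntermediateField.adjoin Kb (⇑(coeffEmb Kb) '' genOne M) := by
    rw [← FOneBar_eq_adjoin]
    exact hx
  refine IntermediateField.adjoin_induction Kb
    (p := fun y _ => ∀ h : y ∈ FOneBar M,
      s (arithmeticRingAut (FOne M) σ ⟨y, h⟩) = arithmeticRingAut (FOne M) σ (s ⟨y, h⟩))
    ?_ ?_ ?_ ?_ ?_ hx' hx
  · rintro y ⟨z, hz, rfl⟩ h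
    have hfix : ∀ (w : LaurentSeries ℚ) (hw : coeffEmb Kb w ∈ FOneBar M),
        arithmeticRingAut (FOne M) σ ⟨coeffEmb Kb w, hw⟩ = ⟨coeffEmb Kb w, hw⟩ := by
      intro w hw
      apply Subtype.ext
      rw [coe_arithmeticRingAut_apply]
      exact coeffMap_coeffEmb σ w
    rcases hz with hz | ⟨a, ha, rfl⟩
    · rw [hfix, hs.1 z hz h, hfix]
    · have hda : (d : ZMod M) * a ≠ 0 := by
        intro h0
        apply ha
        have := congrArg (fun t => ((d⁻¹ : (ZMod M)ˣ) : ZMod M) * t) h0
        simpa using this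
      have h₂ : coeffEmb Kb (fricke M ((d : ZMod M) * a)) ∈ FOneBar M :=
        coeffEmb_mem_laurentBaseChange Kb (fricke_mem M hda)
      rw [hfix, hs.2 a ha h h₂, hfix]
  · intro c h
    have e : (⟨algebraMap Kb (LaurentSeries Kb) c, h⟩ : FOneBar M) =
        algebraMap Kb (FOneBar M) c := rfl
    rw [e, arithmeticRingAut_algebraMap, AlgEquiv.commutes, AlgEquiv.commutes,
      arithmeticRingAut_algebraMap]
  · intro y z hy hz ihy ihz h
    have hy' : y ∈ FOneBar M := by
      rw [FOneBar_eq_adjoin]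
      exact hy
    have hz' : z ∈ FOneBar M := by
      rw [FOneBar_eq_adjoin]
      exact hz
    have e : (⟨y + z, h⟩ : FOneBar M) = ⟨y, hy'⟩ + ⟨z, hz'⟩ := rfl
    rw [e, map_add, map_add, map_add, map_add, ihy hy', ihz hz']
  · intro y hy ihy h
    have hy' : y ∈ FOneBar M := by
      rw [FOneBar_eq_adjoin]
      exact hy
    have e : (⟨y⁻¹, h⟩ : FOneBar M) = (⟨y, hy'⟩)⁻¹ := rfl
    rw [e, map_inv₀, map_inv₀, map_inv₀, map_inv₀, ihy hy']
  · intro y z hy hz ihy ihz h
    have hy' : y ∈ FOneBar M := by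
      rw [FOneBar_eq_adjoin]
      exact hy
    have hz' : z ∈ FOneBar M := by
      rw [FOneBar_eq_adjoin]
      exact hz
    have e : (⟨y * z, h⟩ : FOneBar M) = ⟨y, hy'⟩ * ⟨z, hz'⟩ := rfl
    rw [e, map_mul, map_mul, map_mul, map_mul, ihy hy', ihz hz']

/-- A diamond automorphism commutes with the Galois action in the group of the semilinear
automorphisms. -/
theorem isDiamond_commute {d : (ZMod M)ˣ} {s : FOneBar M ≃ₐ[Kb] FOneBar M}
    (hs : IsDiamond M d s) (σ : GK) :
    SemilinearAut.ofAlgAut (K := Kb) s * arithmeticGalois (FOne M) σ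
      = arithmeticGalois (FOne M) σ * SemilinearAut.ofAlgAut (K := Kb) s := by
  apply Subtype.ext
  refine Prod.ext (RingEquiv.ext fun y => ?_) ?_
  · exact isDiamond_arithmeticRingAut hs σ y
  · show (1 : RingAut Kb) * σ.toRingEquiv = σ.toRingEquiv * 1
    rw [one_mul, mul_one]

variable (M)

/-- `⟨d⟩` on `J₁(M)(ℚ̄)` commutes with the Galois action. -/
theorem diamondOne_galois_smul (d : (ZMod M)ˣ) (σ : GK) (x : JOne M) :
    diamondOne M d (σ • x) = σ • diamondOne M d x := by
  rcases Classical.em (∃ s : FOneBar M ≃ₐ[Kb] FOneBar M, IsDiamond M d s) with h | h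
  · have e : ∀ y : JOne M, diamondOne M d y = h.choose • y := by
      intro y
      unfold diamondOne
      rw [dif_pos h]
      rfl
    rw [e, e, algEquiv_smul_pic0, algEquiv_smul_pic0, galois_smul_pic0_def,
      galois_smul_pic0_def, ← mul_smul, ← mul_smul, isDiamond_commute h.choose_spec σ]
  · have e : diamondOne M d = 0 := by
      unfold diamondOne
      rw [dif_neg h]
    rw [e]
    simp

/-- **(IF-H1)** the Hecke and diamond operators commute with the Galois action. -/
theorem heckeGaloisCommOne : HeckeGaloisCommOne M :=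
  ⟨fun p σ x => heckeOne_galois_smul M p σ x, fun d σ x => diamondOne_galois_smul M d σ x⟩

end Diamond

end Fermat.Agent.S48WH
end
end MergeWrap_S48_W_H_GaloisComm
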