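import Mathlib
import Fermat.Agent.MUL.S48.W.A1.Wire
import Fermat.Agent.MUL.S48.W.A1.XExp
import Fermat.Agent.MUL.S48.W.H.Diamond
import Fermat.Agent.MUL.S48.W.H.GaloisComm
import Fermat.Agent.MUL.S48.W.H.FF
import Fermat.Agent.MUL.S48.W.H.Inputs
import Fermat.Agent.MUL.S48.W.A.Inputs

section MergeWrap_S48_W_H_Final -- from S48/W/H/Final.lean

set_option autoImplicit false

noncomputable section

namespace Fermat.Agent.S48W

/-- **(A1d)** the Fricke functions are algebraic over the function field of `X₀(M)`. -/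
theorem frickeAlgebraicOne (M : ℕ) [NeZero M] : FrickeAlgebraicOne M :=
  Fermat.Agent.S48WA1.a1_frickeAlgebraicOne_of Fermat.Agent.S48WA1.xExp M

/-- **(A1d)**, `ℚ̄`-form. -/
theorem frickeAlgebraicBarOne (M : ℕ) [NeZero M] : FrickeAlgebraicBarOne M :=
  Fermat.Agent.S48WA1.a1_frickeAlgebraicBarOne_of Fermat.Agent.S48WA1.xExp M

/-- **(A1b)** the diamond substitution over `ℂ`. -/
theorem diamondComplexOne (M : ℕ) [NeZero M] : DiamondComplexOne M :=
  Fermat.Agent.S48WA1.a1_diamondComplexOne_of Fermat.Agent.S48WA1.xExp M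

/-- **(H-DIAM)** the diamond automorphisms of `ℚ̄ F₁(M)` exist. -/
theorem diamondExistsOne (M : ℕ) [NeZero M] : DiamondExistsOne M :=
  diamondExistsOne_of M (diamondComplexOne M)

/-- **(IF-H1)** the Hecke and diamond operators commute with the Galois action. -/
theorem heckeGaloisCommOne_top (M : ℕ) [NeZero M] : HeckeGaloisCommOne M :=
  Fermat.Agent.S48WH.heckeGaloisCommOne (M := M)

end Fermat.Agent.S48W
end
end MergeWrap_S48_W_H_Final

section MergeWrap_S48_W_H_Top -- from S48/W/H/Top.lean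

set_option autoImplicit false

noncomputable section

namespace Fermat.Agent.S48W

/-- **(H-FF)** `ℚ̄ F₁(M)` is a function field in one variable. -/
theorem functionFieldOne (M : ℕ) [NeZero M] : FunctionFieldOne M :=
  functionFieldOne_of_bar M (frickeAlgebraicBarOne M)

/-- **(H-FF)** `ℚ̄ F(Γ₁(M) ∩ Γ₀(p))` is a function field in one variable. -/
theorem functionFieldOneP (M p : ℕ) [NeZero M] [NeZero p] : FunctionFieldOneP M p :=
  functionFieldOneP_of_bar M p (frickeAlgebraicBarOne M)

/-- **(H-INP)** the inputs of the Hecke correspondence `T_p` on `J₁(M)`. -/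
theorem heckeInputsOne (M p : ℕ) [NeZero M] [NeZero p] : HeckeInputsOne M p :=
  heckeInputsOne_of M p (functionFieldOne M) (functionFieldOneP M p)

/-- `T_p` on `J₁(M)` is the correspondence `α_* β^*` (the inputs hold). -/
theorem heckeInputsOne_primes (M : ℕ) [NeZero M] (p : Nat.Primes) :
    haveI : NeZero (p : ℕ) := ⟨p.2.ne_zero⟩
    HeckeInputsOne M p :=
  haveI : NeZero (p : ℕ) := ⟨p.2.ne_zero⟩
  heckeInputsOne M p

end Fermat.Agent.S48W
end
end MergeWrap_S48_W_H_Top
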